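import Mathlib

/-!
# S55 / layer L (helper95): from a 2-cocycle of exact order `n` to `H²` cyclic of order `n`

Pure algebra, Mathlib only: if `|H²(G, M)|` divides `n` and there is a multiplicative 2-cocycle
`b` such that `b ^ k` is a coboundary only for `n ∣ k`, then `H²(G, M)` is cyclic of order `n`.
-/

set_option autoImplicit false

namespace Fermat.Agent.S55.Local.H95

open groupCohomology

theorem card_H2_eq_and_isAddCyclic_of_cocycle {G M : Type} [Group G] [CommGroup M]
    [MulDistribMulAction G M] (n : ℕ) (hn : 0 < n)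
    (hcard : Nat.card (H2 (Rep.ofMulDistribMulAction G M)) ∣ n)
    (b : G × G → M) (hb : IsMulCocycle₂ b)
    (hord : ∀ k : ℕ, IsMulCoboundary₂ (fun p => b p ^ k) → n ∣ k) :
    Nat.card (H2 (Rep.ofMulDistribMulAction G M)) = n ∧
      IsAddCyclic (H2 (Rep.ofMulDistribMulAction G M)) := by
  have hfin : Finite (H2 (Rep.ofMulDistribMulAction G M)) :=
    Nat.finite_of_card_ne_zero (fun h => by
      rw [h] at hcard
      exact hn.ne' (Nat.eq_zero_of_zero_dvd hcard))
  obtain ⟨β, hβ⟩ : ∃ β : H2 (Rep.ofMulDistribMulAction G M),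
      β = H2π (Rep.ofMulDistribMulAction G M) (cocyclesOfIsMulCocycle₂ hb) := ⟨_, rfl⟩
  have hk : ∀ k : ℕ, k • β = 0 → n ∣ k := by
    intro k hk
    apply hord
    rw [hβ, ← map_nsmul, H2π_eq_zero_iff] at hk
    exact isMulCoboundary₂_of_mem_coboundaries₂ _ hk
  have h1 : addOrderOf β ∣ Nat.card (H2 (Rep.ofMulDistribMulAction G M)) :=
    addOrderOf_dvd_natCard β
  have h2 : n ∣ addOrderOf β := hk _ (addOrderOf_nsmul_eq_zero β)
  have h3 : addOrderOf β = Nat.card (H2 (Rep.ofMulDistribMulAction G M)) :=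
    Nat.dvd_antisymm h1 (hcard.trans h2)
  have h4 : Nat.card (H2 (Rep.ofMulDistribMulAction G M)) = n :=
    Nat.dvd_antisymm hcard (h3 ▸ h2)
  exact ⟨h4, isAddCyclic_of_addOrderOf_eq_card β h3⟩

end Fermat.Agent.S55.Local.H95
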