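import Fermat.Agent.S55.Local.H95.Helpers
import Fermat.Agent.S55.Local.H95.Bridge

/-!
# S55 / layer L (helper95): core of the T5 glue (lower bound for `H²(Gal(L/K), Lˣ)`)

Setting: `L / K` finite Galois of degree `n`, `N ⊇ L` Galois over `K` with `N / L` unramified of
degree `n`, `U ⊆ N` Galois and unramified over `K` (in the application `U = N^I`, `I` the
inertia group).  The inflation to `Gal(N/K)` of the standard cyclic cocycle of `Gal(U/K)`
attached to a power of a uniformizer of `K` has order `n` and dies on `Gal(N/L)`; by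
inflation–restriction it comes from a cocycle of `Gal(L/K)` of order `n`.
-/

set_option autoImplicit false
set_option linter.style.haveILetI false
set_option linter.unusedSectionVars false

namespace Fermat.Agent.S55.Local.H95

open groupCohomology Fermat.Agent.S55.Local

section OrderPart

variable (A F : Type) [CommRing A] [IsDomain A] [IsDiscreteValuationRing A]
  [IsAdicComplete (IsLocalRing.maximalIdeal A) A] [Finite (IsLocalRing.ResidueField A)]
  [Field F] [CharZero F] [Algebra A F] [IsFractionRing A F]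
  (K : Type) [Field K] [Algebra F K] [FiniteDimensional F K]
  (N : Type) [Field N] [Algebra K N] [FiniteDimensional K N] [IsGalois K N]
  (U : Type) [Field U] [Algebra F U] [Algebra K U] [Algebra U N]
  [IsScalarTower F K U] [IsScalarTower K U N] [FiniteDimensional K U] [IsGalois K U]

/-- The cocycle on `Gal(N/K)`: inflation of the standard cyclic cocycle of `Gal(U/K)`. -/
noncomputable def inflCyc (φ : U ≃ₐ[K] U) (x : Kˣ) : (N ≃ₐ[K] N) × (N ≃ₐ[K] N) → Nˣ :=
  fun p => unitsIncl N U (cycCocycle φ (unitsIncl U K x)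
    (AlgEquiv.restrictNormalHom U p.1, AlgEquiv.restrictNormalHom U p.2))

lemma inflCyc_isMulCocycle₂ (hA4a : CycCocycleIsCocycleStatement) (φ : U ≃ₐ[K] U)
    (hφ : ∀ g, g ∈ Subgroup.zpowers φ) (x : Kˣ) :
    IsMulCocycle₂ (inflCyc K N U φ x) :=
  isMulCocycle₂_infl (π := (AlgEquiv.restrictNormalHom U : (N ≃ₐ[K] N) →* (U ≃ₐ[K] U)))
    (ι := unitsIncl N U) smul_unitsIncl_tower _
    (hA4a (U ≃ₐ[K] U) Uˣ φ hφ _ (smul_unitsIncl φ x))

/-- (i) the inflated cocycle has order divisible by `n`, where `[U : K] = n * d` and the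
cocycle is attached to `ϖK ^ d`. -/
theorem inflCyc_order (hA4a : CycCocycleIsCocycleStatement)
    (hA4b : CycCocycleCoboundaryIffStatement) (hT2 : UnramNormRangeStatement)
    (hUK : IsUnram A F U K) (φ : U ≃ₐ[K] U) (hφ : ∀ g, g ∈ Subgroup.zpowers φ)
    (ϖK : Kˣ) (hϖK : IsUnif A F K ϖK) (n d : ℕ) (hd : 0 < d)
    (hnd : Module.finrank K U = n * d) (k : ℕ)
    (hk : IsMulCoboundary₂ (fun p => inflCyc K N U φ (ϖK ^ d) p ^ k)) : n ∣ k := by
  have SU : MulInflSetup (AlgEquiv.restrictNormalHom U : (N ≃ₐ[K] N) →* (U ≃ₐ[K] U))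
      (unitsIncl N U) := mulInflSetup_restrictNormalHom
  have hfix : φ • (unitsIncl U K (ϖK ^ d)) ^ k = (unitsIncl U K (ϖK ^ d)) ^ k := by
    rw [← map_pow]
    exact smul_unitsIncl φ _
  have hcoc : IsMulCocycle₂ (cycCocycle φ ((unitsIncl U K (ϖK ^ d)) ^ k)) :=
    hA4a (U ≃ₐ[K] U) Uˣ φ hφ _ hfix
  have hk' : IsMulCoboundary₂ (fun p : (N ≃ₐ[K] N) × (N ≃ₐ[K] N) =>
      unitsIncl N U (cycCocycle φ ((unitsIncl U K (ϖK ^ d)) ^ k)
        (AlgEquiv.restrictNormalHom U p.1, AlgEquiv.restrictNormalHom U p.2))) := by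
    have e : (fun p : (N ≃ₐ[K] N) × (N ≃ₐ[K] N) =>
        unitsIncl N U (cycCocycle φ ((unitsIncl U K (ϖK ^ d)) ^ k)
          (AlgEquiv.restrictNormalHom U p.1, AlgEquiv.restrictNormalHom U p.2))) =
        fun p => inflCyc K N U φ (ϖK ^ d) p ^ k := by
      funext p
      simp only [inflCyc, cycCocycle, ← map_pow, ← pow_mul]
      congr 3
      ring
    rw [e]
    exact hk
  have hcob := mul_infl_injective SU _ hcoc hk'
  obtain ⟨y, hy⟩ := (hA4b (U ≃ₐ[K] U) Uˣ φ hφ _ hfix).1 hcob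
  rw [prod_smul_eq_unitsIncl_norm, ← map_pow, ← pow_mul] at hy
  have hy' : normUnits U K y = ϖK ^ (d * k) := unitsIncl_injective hy
  have hT := (hT2 A F K U ϖK hUK hϖK 1 ((d * k : ℕ) : ℤ) (Subgroup.one_mem _)).1
    ⟨y, by rw [hy', one_mul, zpow_natCast]⟩
  rw [hnd, Int.natCast_dvd_natCast, mul_comm n d] at hT
  exact Nat.dvd_of_mul_dvd_mul_left hd hT

end OrderPart

section RestrictionPart

variable (A F : Type) [CommRing A] [IsDomain A] [IsDiscreteValuationRing A]
  [IsAdicComplete (IsLocalRing.maximalIdeal A) A] [Finite (IsLocalRing.ResidueField A)]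
  [Field F] [CharZero F] [Algebra A F] [IsFractionRing A F]
  (K : Type) [Field K] [Algebra F K] [FiniteDimensional F K]
  (L : Type) [Field L] [Algebra F L] [Algebra K L] [IsScalarTower F K L]
  [FiniteDimensional K L] [IsGalois K L]
  (N : Type) [Field N] [Algebra F N] [Algebra K N] [Algebra L N]
  [IsScalarTower F K N] [IsScalarTower F L N] [IsScalarTower K L N]
  [FiniteDimensional K N] [IsGalois K N]
  (U : Type) [Field U] [Algebra F U] [Algebra K U] [Algebra U N]
  [IsScalarTower F K U] [IsScalarTower K U N] [FiniteDimensional K U] [IsGalois K U]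

/-- The homomorphism `Gal(N/L) → Gal(U/K)`, `σ ↦ σ|_U`. -/
noncomputable def resHom : (N ≃ₐ[L] N) →* (U ≃ₐ[K] U) :=
  (AlgEquiv.restrictNormalHom U : (N ≃ₐ[K] N) →* (U ≃ₐ[K] U)).comp (AlgEquiv.restrictScalarsHom K)

omit [IsGalois K L] [FiniteDimensional K L] [IsGalois K N] [FiniteDimensional K N]
  [FiniteDimensional K U] in
lemma resHom_apply (σ : N ≃ₐ[L] N) :
    resHom K L N U σ = AlgEquiv.restrictNormalHom U (σ.restrictScalars K) := rfl

/-- (ii) the restriction of the inflated cocycle to `Gal(N/L)` is a coboundary. -/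
theorem inflCyc_restrict (hA4b : CycCocycleCoboundaryIffStatement)
    (hA4d : CycCocyclePullbackStatement) (hT2 : UnramNormRangeStatement)
    (hNL : IsUnram A F N L)
    (φ : U ≃ₐ[K] U) (hφ : ∀ g, g ∈ Subgroup.zpowers φ)
    (ψ : N ≃ₐ[L] N) (hψ : ∀ g, g ∈ Subgroup.zpowers ψ)
    (hρ : Function.Injective (resHom K L N U))
    (hρψ : resHom K L N U ψ = φ ^ (Nat.card (U ≃ₐ[K] U) / Nat.card (N ≃ₐ[L] N)))
    (ϖK : Kˣ) (ϖL : Lˣ) (hϖL : IsUnif A F L ϖL) (e d : ℕ)
    (he : unitsIncl L K ϖK * ϖL ^ (-(e : ℤ)) ∈ intUnits A F L)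
    (hed : e * d = Module.finrank L N) :
    ∃ s₀ : (N ≃ₐ[K] N) → Nˣ, ∀ s s' : N ≃ₐ[K] N,
      AlgEquiv.restrictNormalHom L s = 1 → AlgEquiv.restrictNormalHom L s' = 1 →
      s • s₀ s' / s₀ (s * s') * s₀ s = inflCyc K N U φ (ϖK ^ d) (s, s') := by
  classical
  haveI : FiniteDimensional F L := FiniteDimensional.trans F K L
  haveI : FiniteDimensional L N := FiniteDimensional.right K L N
  haveI : IsGalois L N := IsGalois.tower_top_of_isGalois K L N
  -- the element `ϖK ^ d` is a norm from `N` to `L`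
  have hnorm : ∃ y : Nˣ, normUnits N L y = unitsIncl L K (ϖK ^ d) := by
    have hu : (unitsIncl L K ϖK * ϖL ^ (-(e : ℤ))) ^ d ∈ intUnits A F L :=
      (intUnits A F L).pow_mem he d
    obtain ⟨y, hy⟩ := (hT2 A F L N ϖL hNL hϖL _ ((e * d : ℕ) : ℤ) hu).2 (by rw [hed])
    refine ⟨y, hy.trans ?_⟩
    rw [map_pow, mul_pow, ← zpow_natCast (ϖL ^ (-(e : ℤ))) d, ← zpow_mul, mul_assoc, ← zpow_add]
    have e0 : -(e : ℤ) * (d : ℤ) + ((e * d : ℕ) : ℤ) = 0 := by push_cast; ring
    rw [e0, zpow_zero, mul_one]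
  obtain ⟨y, hy⟩ := hnorm
  have hprod : ∏ σ : N ≃ₐ[L] N, σ • y = unitsIncl N K (ϖK ^ d) := by
    rw [prod_smul_eq_unitsIncl_norm, hy, unitsIncl_unitsIncl]
  have hfix : ψ • unitsIncl N K (ϖK ^ d) = unitsIncl N K (ϖK ^ d) := by
    rw [← unitsIncl_unitsIncl (E := L)]
    exact smul_unitsIncl ψ _
  obtain ⟨t', ht'⟩ := (hA4b (N ≃ₐ[L] N) Nˣ ψ hψ _ hfix).2 ⟨y, hprod⟩
  -- pullback of the cyclic cocycle
  have hpull : ∀ σ σ' : N ≃ₐ[L] N,
      inflCyc K N U φ (ϖK ^ d) (σ.restrictScalars K, σ'.restrictScalars K) =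
        cycCocycle ψ (unitsIncl N K (ϖK ^ d)) (σ, σ') := by
    intro σ σ'
    have h := hA4d (U ≃ₐ[K] U) (N ≃ₐ[L] N) Nˣ φ ψ (resHom K L N U) hφ hψ hρ hρψ
      (unitsIncl N K (ϖK ^ d)) (σ, σ')
    rw [← h]
    simp only [inflCyc, cycCocycle, map_pow, unitsIncl_unitsIncl, resHom_apply]
  refine ⟨fun g => if hg : AlgEquiv.restrictNormalHom L g = 1 then t' (liftKer g hg) else 1,
    fun s s' hs hs' => ?_⟩
  have hss' : AlgEquiv.restrictNormalHom L (s * s') = 1 := by rw [map_mul, hs, hs', one_mul]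
  simp only [dif_pos hs, dif_pos hs', dif_pos hss']
  rw [liftKer_mul s s' hs hs' hss', ← liftKer_smul s hs, ht', ← hpull,
    liftKer_restrictScalars, liftKer_restrictScalars]

/-- **Core of the T5 glue.**  There is a multiplicative 2-cocycle of `Gal(L/K)` with values in
`Lˣ` whose class has order divisible by `n = [L : K]`. -/
theorem exists_cocycle_of_order
    (hA4a : CycCocycleIsCocycleStatement) (hA4b : CycCocycleCoboundaryIffStatement)
    (hA4d : CycCocyclePullbackStatement)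
    (hLF2 : ExistsUnifStatement) (hLF3 : IntUnitsComapStatement) (hLF7 : RamificationStatement)
    (hUR1 : UnramCyclicStatement) (hT2 : UnramNormRangeStatement)
    (hNL : IsUnram A F N L) (hdeg : Module.finrank L N = Module.finrank K L)
    (hUK : IsUnram A F U K)
    (hdisj : ∀ g : N ≃ₐ[K] N, AlgEquiv.restrictNormalHom L g = 1 →
      AlgEquiv.restrictNormalHom U g = 1 → g = 1)
    (hcard : ∀ (ϖK : Kˣ) (ϖN : Nˣ), IsUnif A F K ϖK → IsUnif A F N ϖN →
      unitsIncl N K ϖK * ϖN ^ (-(Nat.card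
        (AlgEquiv.restrictNormalHom U : (N ≃ₐ[K] N) →* (U ≃ₐ[K] U)).ker : ℤ)) ∈
          intUnits A F N) :
    ∃ b : (L ≃ₐ[K] L) × (L ≃ₐ[K] L) → Lˣ, IsMulCocycle₂ b ∧
      ∀ k : ℕ, IsMulCoboundary₂ (fun p => b p ^ k) → Module.finrank K L ∣ k := by
  classical
  haveI : FiniteDimensional F L := FiniteDimensional.trans F K L
  haveI : FiniteDimensional F N := FiniteDimensional.trans F K N
  haveI : FiniteDimensional L N := FiniteDimensional.right K L N
  haveI : IsGalois L N := IsGalois.tower_top_of_isGalois K L N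
  have hn0 : 0 < Module.finrank K L := Module.finrank_pos
  have hf0 : 0 < Module.finrank K U := Module.finrank_pos
  have SL : MulInflSetup (AlgEquiv.restrictNormalHom L : (N ≃ₐ[K] N) →* (L ≃ₐ[K] L))
      (unitsIncl N L) := mulInflSetup_restrictNormalHom
  -- `Gal(N/L) → Gal(U/K)` is injective
  have hρ : Function.Injective (resHom K L N U) := by
    rw [injective_iff_map_eq_one]
    intro σ hσ
    have h1 := hdisj (σ.restrictScalars K) (restrictNormalHom_restrictScalars σ) hσ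
    exact AlgEquiv.restrictScalars_injective K (h1.trans rfl)
  -- cardinalities
  have hcN : Nat.card (N ≃ₐ[L] N) = Module.finrank K L := by
    rw [IsGalois.card_aut_eq_finrank, hdeg]
  have hcG : Nat.card (N ≃ₐ[K] N) = Module.finrank K L * Module.finrank K L := by
    rw [IsGalois.card_aut_eq_finrank, ← Module.finrank_mul_finrank K L N, hdeg]
  have hcU : Nat.card (U ≃ₐ[K] U) = Module.finrank K U := IsGalois.card_aut_eq_finrank K U
  have hker : Nat.card (AlgEquiv.restrictNormalHom U : (N ≃ₐ[K] N) →* (U ≃ₐ[K] U)).ker *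
      Module.finrank K U = Module.finrank K L * Module.finrank K L := by
    rw [← hcG, ← hcU,
      ← Subgroup.card_mul_index (AlgEquiv.restrictNormalHom U : (N ≃ₐ[K] N) →* (U ≃ₐ[K] U)).ker,
      Subgroup.index_ker, MonoidHom.range_eq_top.2 (AlgEquiv.restrictNormalHom_surjective N),
      Subgroup.card_top]
  obtain ⟨d, hd⟩ : Module.finrank K L ∣ Module.finrank K U := by
    rw [← hcN, ← hcU]
    exact Subgroup.card_dvd_of_injective _ hρ
  have hd0 : 0 < d := by
    rcases Nat.eq_zero_or_pos d with h | h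
    · rw [h, mul_zero] at hd
      exact absurd hd hf0.ne'
    · exact h
  have hkd : Nat.card (AlgEquiv.restrictNormalHom U : (N ≃ₐ[K] N) →* (U ≃ₐ[K] U)).ker * d =
      Module.finrank K L := by
    rw [hd] at hker
    have h2 : Nat.card (AlgEquiv.restrictNormalHom U : (N ≃ₐ[K] N) →* (U ≃ₐ[K] U)).ker * d *
        Module.finrank K L = Module.finrank K L * Module.finrank K L := by
      rw [← hker]
      ring
    exact Nat.eq_of_mul_eq_mul_right hn0 h2
  -- generators
  haveI : IsCyclic (U ≃ₐ[K] U) := hUR1 A F K U hUK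
  obtain ⟨φ, hφ⟩ := IsCyclic.exists_generator (α := U ≃ₐ[K] U)
  obtain ⟨ψ, hψ, hρψ⟩ := exists_generator_map_eq_pow φ hφ (resHom K L N U) hρ
  -- uniformizers and ramification
  obtain ⟨ϖK, hϖK⟩ := hLF2 A F K
  obtain ⟨ϖL, hϖL⟩ := hLF2 A F L
  obtain ⟨e, f', -, he, -⟩ := hLF7 A F K L ϖK ϖL hϖK hϖL
  have hcomap : ∀ y : Lˣ, unitsIncl N L y ∈ intUnits A F N ↔ y ∈ intUnits A F L :=
    fun y => hLF3 A F L N y
  have hϖN : IsUnif A F N (unitsIncl N L ϖL) := isUnif_unitsIncl hcomap hNL hϖL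
  have hc := hcard ϖK _ hϖK hϖN
  have he2 : unitsIncl N K ϖK * (unitsIncl N L ϖL) ^ (-(e : ℤ)) ∈ intUnits A F N := by
    have h := (hcomap _).2 he
    rwa [map_mul, map_zpow, unitsIncl_unitsIncl] at h
  have hecard : (e : ℤ) =
      (Nat.card (AlgEquiv.restrictNormalHom U : (N ≃ₐ[K] N) →* (U ≃ₐ[K] U)).ker : ℤ) :=
    zpow_unique_of_isUnif hϖN he2 hc
  have hed : e * d = Module.finrank L N := by
    rw [hdeg, ← hkd]
    congr 1
    exact_mod_cast hecard
  -- the cocycle
  have hc₀ := inflCyc_isMulCocycle₂ K N U hA4a φ hφ (ϖK ^ d)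
  have hres := inflCyc_restrict A F K L N U hA4b hA4d hT2 hNL φ hφ ψ hψ hρ hρψ ϖK ϖL hϖL e d
    he hed
  obtain ⟨b, hb, hquot⟩ := mul_infres_exact SL _ hc₀ hres
  refine ⟨b, hb, fun k hk => ?_⟩
  have h1 := isMulCoboundary₂_infl
    (π := (AlgEquiv.restrictNormalHom L : (N ≃ₐ[K] N) →* (L ≃ₐ[K] L)))
    (ι := unitsIncl N L) smul_unitsIncl_tower _ hk
  have h2 := isMulCoboundary₂_mul (isMulCoboundary₂_pow hquot k) h1
  apply inflCyc_order A F K N U hA4a hA4b hT2 hUK φ hφ ϖK hϖK (Module.finrank K L) d hd0 hd k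
  convert h2 using 1
  funext p
  simp only [map_pow, div_pow, div_mul_cancel]

end RestrictionPart

end Fermat.Agent.S55.Local.H95
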