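import Fermat.Agent.S55.Local.H95.InfResAdd

/-!
# S55 / layer L (helper95): inflation and restriction in degree 2, cocycle level, MULTIPLICATIVE

Same statements as `InfResAdd.lean`, for `CommGroup`s with a `MulDistribMulAction`
(Mathlib's `IsMulCocycle₂`, `IsMulCoboundary₂`).  Pure algebra.
-/

set_option autoImplicit false
set_option linter.style.haveILetI false

namespace Fermat.Agent.S55.Local.H95

open groupCohomology

/-- The additive action on `Additive M` attached to a `MulDistribMulAction` (not an instance;
use with `letI`). -/
@[reducible] def additiveAction (G M : Type*) [Monoid G] [CommGroup M] [MulDistribMulAction G M] :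
    DistribMulAction G (Additive M) where
  smul g m := Additive.ofMul (g • Additive.toMul m)
  one_smul m := congrArg Additive.ofMul (one_smul G (Additive.toMul m))
  mul_smul g h m := congrArg Additive.ofMul (mul_smul g h (Additive.toMul m))
  smul_zero g := congrArg Additive.ofMul (smul_one g)
  smul_add g m m' := congrArg Additive.ofMul (smul_mul' g (Additive.toMul m) (Additive.toMul m'))

section Mul

variable {G Q M M' : Type*} [Group G] [Group Q] [CommGroup M] [CommGroup M']
  [MulDistribMulAction G M] [MulDistribMulAction Q M']

/-- The hypotheses of the inflation–restriction sequence, in multiplicative cocycle form: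
`π : G →* Q` surjective, `ι : M' →* M` injective and equivariant with image the
`ker π`-invariants, and `H¹(ker π, M) = 1`. -/
structure MulInflSetup (π : G →* Q) (ι : M' →* M) : Prop where
  surj : Function.Surjective π
  inj : Function.Injective ι
  equivariant : ∀ (g : G) (y : M'), g • ι y = ι (π g • y)
  invariants : ∀ m : M, (∀ g : G, π g = 1 → g • m = m) → ∃ y : M', ι y = m
  h1 : ∀ t : G → M, (∀ s s' : G, π s = 1 → π s' = 1 → t (s * s') = s • t s' * t s) →
    ∃ m : M, ∀ s : G, π s = 1 → s • m / m = t s

variable {π : G →* Q} {ι : M' →* M}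

lemma MulInflSetup.toAdd (H : MulInflSetup π ι) :
    letI := additiveAction G M
    letI := additiveAction Q M'
    InflSetup π (MonoidHom.toAdditive ι) := by
  letI := additiveAction G M
  letI := additiveAction Q M'
  exact
    { surj := H.surj
      inj := fun x y h => H.inj h
      equivariant := fun g y => congrArg Additive.ofMul (H.equivariant g (Additive.toMul y))
      invariants := fun m hm => by
        obtain ⟨y, hy⟩ := H.invariants (Additive.toMul m) (fun g hg => hm g hg)
        exact ⟨Additive.ofMul y, hy⟩
      h1 := fun t ht => by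
        obtain ⟨m, hm⟩ := H.h1 (fun g => Additive.toMul (t g)) (fun s s' hs hs' => ht s s' hs hs')
        exact ⟨Additive.ofMul m, fun s hs => hm s hs⟩ }

/-- The inflation of a multiplicative 2-cocycle is a 2-cocycle. -/
theorem isMulCocycle₂_infl (hι : ∀ (g : G) (y : M'), g • ι y = ι (π g • y))
    (b : Q × Q → M') (hb : IsMulCocycle₂ b) :
    IsMulCocycle₂ (fun p : G × G => ι (b (π p.1, π p.2))) := by
  intro g h j
  have h1 := congrArg ι (hb (π g) (π h) (π j))
  simpa only [map_mul, hι] using h1

/-- The inflation of a multiplicative 2-coboundary is a 2-coboundary. -/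
theorem isMulCoboundary₂_infl (hι : ∀ (g : G) (y : M'), g • ι y = ι (π g • y))
    (b : Q × Q → M') (hb : IsMulCoboundary₂ b) :
    IsMulCoboundary₂ (fun p : G × G => ι (b (π p.1, π p.2))) := by
  obtain ⟨t, ht⟩ := hb
  refine ⟨fun g => ι (t (π g)), fun g h => ?_⟩
  simp only [map_mul, hι, ← ht, map_div]

/-- **Inflation is injective on `H²`** (multiplicative cocycle form), when `H¹(ker π, M) = 1`. -/
theorem mul_infl_injective (H : MulInflSetup π ι) (b : Q × Q → M') (hb : IsMulCocycle₂ b)
    (hcob : IsMulCoboundary₂ (fun p : G × G => ι (b (π p.1, π p.2)))) : IsMulCoboundary₂ b := by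
  letI := additiveAction G M
  letI := additiveAction Q M'
  have key := infl_injective (π := π) (ι := MonoidHom.toAdditive ι) H.toAdd
    (fun p => Additive.ofMul (b p)) (fun g h j => hb g h j)
    (by
      obtain ⟨t, ht⟩ := hcob
      exact ⟨fun g => Additive.ofMul (t g), fun g h => ht g h⟩)
  obtain ⟨t, ht⟩ := key
  exact ⟨fun q => Additive.toMul (t q), fun q r => ht q r⟩

/-- **Exactness of inflation–restriction in degree 2** (multiplicative cocycle form), when
`H¹(ker π, M) = 1`: a 2-cocycle on `G` whose restriction to `ker π` is a coboundary is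
cohomologous to the inflation of a 2-cocycle on `Q`. -/
theorem mul_infres_exact (H : MulInflSetup π ι) (c : G × G → M) (hc : IsMulCocycle₂ c)
    (hres : ∃ s₀ : G → M, ∀ s s' : G, π s = 1 → π s' = 1 →
      s • s₀ s' / s₀ (s * s') * s₀ s = c (s, s')) :
    ∃ b : Q × Q → M', IsMulCocycle₂ b ∧
      IsMulCoboundary₂ (fun p : G × G => c p / ι (b (π p.1, π p.2))) := by
  letI := additiveAction G M
  letI := additiveAction Q M'
  have key := infres_exact (π := π) (ι := MonoidHom.toAdditive ι) H.toAdd
    (fun p => Additive.ofMul (c p)) (fun g h j => hc g h j)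
    (by
      obtain ⟨s₀, hs₀⟩ := hres
      exact ⟨fun g => Additive.ofMul (s₀ g), fun s s' hs hs' => hs₀ s s' hs hs'⟩)
  obtain ⟨b, hb, t, ht⟩ := key
  exact ⟨fun p => Additive.toMul (b p), fun g h j => hb g h j,
    fun g => Additive.toMul (t g), fun g h => ht g h⟩

end Mul

end Fermat.Agent.S55.Local.H95
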