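import Fermat.Agent.S55.Local.Spec
import Fermat.Agent.S55.Local.H95.InfResMul

/-!
# S55 / layer L (helper95): Galois bookkeeping for the T5 glue

For a tower `K ⊆ E ⊆ N` with `N / K` finite Galois and `E / K` normal, the restriction
`π = AlgEquiv.restrictNormalHom E : Gal(N/K) →* Gal(E/K)` and the inclusion
`ι = unitsIncl N E : Eˣ →* Nˣ` satisfy the hypotheses `MulInflSetup` of the cocycle-level
inflation–restriction sequence (Hilbert 90 for `N / E`, Galois correspondence).
Also: the product of the conjugates of a unit is its norm.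
-/

set_option autoImplicit false
set_option linter.style.haveILetI false

namespace Fermat.Agent.S55.Local.H95

open groupCohomology Fermat.Agent.S55.Local

section Norm

variable {K L : Type} [Field K] [Field L] [Algebra K L] [FiniteDimensional K L] [IsGalois K L]

/-- The product of the Galois conjugates of a unit is (the image of) its norm. -/
lemma prod_smul_eq_unitsIncl_norm [inst : Fintype (L ≃ₐ[K] L)] (y : Lˣ) :
    ∏ g : L ≃ₐ[K] L, g • y = unitsIncl L K (normUnits L K y) := by
  have hinst : inst = AlgEquiv.fintype K L := Subsingleton.elim _ _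
  subst hinst
  apply Units.ext
  rw [Units.coe_prod, unitsIncl_coe, normUnits_coe, Algebra.norm_eq_prod_automorphisms]
  rfl

omit [FiniteDimensional K L] [IsGalois K L] in
lemma unitsIncl_injective : Function.Injective (unitsIncl L K) := by
  intro x y h
  apply Units.ext
  apply (algebraMap K L).injective
  exact congrArg Units.val h

omit [FiniteDimensional K L] [IsGalois K L] in
lemma smul_unitsIncl (g : L ≃ₐ[K] L) (y : Kˣ) : g • unitsIncl L K y = unitsIncl L K y := by
  apply Units.ext
  change g (algebraMap K L y) = algebraMap K L y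
  exact g.commutes y

end Norm

section Tower

variable {K E N : Type} [Field K] [Field E] [Field N] [Algebra K E] [Algebra K N] [Algebra E N]
  [IsScalarTower K E N]

lemma unitsIncl_unitsIncl (y : Kˣ) : unitsIncl N E (unitsIncl E K y) = unitsIncl N K y := by
  apply Units.ext
  change algebraMap E N (algebraMap K E y) = algebraMap K N y
  rw [← IsScalarTower.algebraMap_apply]

variable [Normal K E]

lemma restrictNormalHom_eq_one_iff (g : N ≃ₐ[K] N) :
    AlgEquiv.restrictNormalHom E g = 1 ↔ ∀ y : E, g (algebraMap E N y) = algebraMap E N y := by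
  constructor
  · intro h y
    have h1 := AlgEquiv.restrictNormal_commutes g E y
    have h' : g.restrictNormal E = 1 := h
    rw [← h1, h']
    rfl
  · intro h
    apply AlgEquiv.ext
    intro y
    apply (algebraMap E N).injective
    exact (AlgEquiv.restrictNormal_commutes g E y).trans (h y)

lemma restrictNormalHom_restrictScalars (σ : N ≃ₐ[E] N) :
    AlgEquiv.restrictNormalHom E (σ.restrictScalars K) = 1 :=
  (restrictNormalHom_eq_one_iff _).2 (fun y => σ.commutes y)

/-- An element of the kernel of the restriction to `E`, as an `E`-automorphism. -/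
def liftKer (g : N ≃ₐ[K] N) (hg : AlgEquiv.restrictNormalHom E g = 1) : N ≃ₐ[E] N :=
  AlgEquiv.ofRingEquiv (f := g.toRingEquiv) ((restrictNormalHom_eq_one_iff g).1 hg)

@[simp] lemma liftKer_apply (g : N ≃ₐ[K] N) (hg : AlgEquiv.restrictNormalHom E g = 1) (x : N) :
    liftKer g hg x = g x := rfl

lemma liftKer_restrictScalars (g : N ≃ₐ[K] N) (hg : AlgEquiv.restrictNormalHom E g = 1) :
    (liftKer g hg).restrictScalars K = g := by
  ext x
  rfl

lemma liftKer_mul (g h : N ≃ₐ[K] N) (hg : AlgEquiv.restrictNormalHom E g = 1)
    (hh : AlgEquiv.restrictNormalHom E h = 1)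
    (hgh : AlgEquiv.restrictNormalHom E (g * h) = 1) :
    liftKer (g * h) hgh = liftKer g hg * liftKer h hh := by
  ext x
  rfl

lemma liftKer_smul (g : N ≃ₐ[K] N) (hg : AlgEquiv.restrictNormalHom E g = 1) (x : Nˣ) :
    liftKer g hg • x = g • x := by
  apply Units.ext
  rfl

omit [Normal K E] in
lemma restrictScalars_smul (σ : N ≃ₐ[E] N) (x : Nˣ) :
    (σ.restrictScalars K) • x = σ • x := by
  apply Units.ext
  rfl

lemma smul_unitsIncl_tower (g : N ≃ₐ[K] N) (y : Eˣ) :
    g • unitsIncl N E y = unitsIncl N E (AlgEquiv.restrictNormalHom E g • y) := by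
  apply Units.ext
  change g (algebraMap E N y) = algebraMap E N (g.restrictNormal E y)
  rw [AlgEquiv.restrictNormal_commutes]

variable [FiniteDimensional K N] [IsGalois K N]

/-- **The inflation–restriction setup for `Gal(N/K) → Gal(E/K)` acting on units.** -/
theorem mulInflSetup_restrictNormalHom :
    MulInflSetup (AlgEquiv.restrictNormalHom E : (N ≃ₐ[K] N) →* (E ≃ₐ[K] E)) (unitsIncl N E) := by
  haveI : IsGalois E N := IsGalois.tower_top_of_isGalois K E N
  haveI : FiniteDimensional E N := FiniteDimensional.right K E N
  refine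
    { surj := AlgEquiv.restrictNormalHom_surjective N
      inj := unitsIncl_injective
      equivariant := smul_unitsIncl_tower
      invariants := ?_
      h1 := ?_ }
  · intro m hm
    have hfix : ∀ σ : N ≃ₐ[E] N, σ (m : N) = m := fun σ =>
      congrArg Units.val (hm (σ.restrictScalars K) (restrictNormalHom_restrictScalars σ))
    have hmem : (m : N) ∈ (⊥ : IntermediateField E N) := (IsGalois.mem_bot_iff_fixed _).2 hfix
    obtain ⟨y, hy⟩ := IntermediateField.mem_bot.1 hmem
    have hy0 : y ≠ 0 := by
      rintro rfl
      rw [map_zero] at hy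
      exact m.ne_zero hy.symm
    exact ⟨Units.mk0 y hy0, Units.ext hy⟩
  · intro t ht
    have hf : IsMulCocycle₁ (fun σ : N ≃ₐ[E] N => t (σ.restrictScalars K)) := by
      intro σ τ
      have h := ht (σ.restrictScalars K) (τ.restrictScalars K)
        (restrictNormalHom_restrictScalars σ) (restrictNormalHom_restrictScalars τ)
      rw [restrictScalars_smul] at h
      exact h
    obtain ⟨β, hβ⟩ := isMulCoboundary₁_of_isMulCocycle₁_of_aut_to_units _ hf
    refine ⟨β, fun s hs => ?_⟩
    have h := hβ (liftKer s hs)
    rw [liftKer_smul] at h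
    simpa only [liftKer_restrictScalars] using h

end Tower

end Fermat.Agent.S55.Local.H95
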