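import Fermat.Agent.S55.Local.H95.Core

/-!
# S55 / layer L (helper95): GLUE T5 — `H2CyclicStatement`

`H²(Gal(L/K), Lˣ)` is cyclic of order `[L : K]` for every finite Galois extension of local
fields, from the Statements of `Local/Spec.lean` (as hypotheses) and ONE extra statement:
`InertiaStrongStatement` = `InertiaStatement` (UR6) + "the order of the inertia subgroup is the
ramification index" (the frozen UR6 does not export the order of `I`, and it is not a formal
consequence of the frozen Statements).
-/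

set_option autoImplicit false
set_option linter.style.haveILetI false

namespace Fermat.Agent.S55.Local.H95

open groupCohomology Fermat.Agent.S55.Local

/-- (UR6⁺) `InertiaStatement` together with the order of the inertia subgroup:
`ϖK = unit * ϖN ^ |I|` for uniformizers `ϖK`, `ϖN` of `K`, `N`. -/
def InertiaStrongStatement : Prop :=
  ∀ (A F : Type) [CommRing A] [IsDomain A] [IsDiscreteValuationRing A]
    [IsAdicComplete (IsLocalRing.maximalIdeal A) A] [Finite (IsLocalRing.ResidueField A)]
    [Field F] [CharZero F] [Algebra A F] [IsFractionRing A F]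
    (K : Type) [Field K] [Algebra F K] [FiniteDimensional F K]
    (N : Type) [Field N] [Algebra F N] [Algebra K N] [IsScalarTower F K N]
    [FiniteDimensional K N] [IsGalois K N],
    ∃ I : Subgroup (N ≃ₐ[K] N), I.Normal ∧
      (∀ E : IntermediateField K N,
        letI : Algebra F E := ((algebraMap K E).comp (algebraMap F K)).toAlgebra
        (IsUnram A F N E ↔ E.fixingSubgroup ⊓ I = ⊥) ∧
        (IsUnram A F E K ↔ I ≤ E.fixingSubgroup)) ∧
      ∀ (ϖK : Kˣ) (ϖN : Nˣ), IsUnif A F K ϖK → IsUnif A F N ϖN →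
        unitsIncl N K ϖK * ϖN ^ (-(Nat.card I : ℤ)) ∈ intUnits A F N

/-- The order statement alone, for ANY normal subgroup with the UR6 property (such a subgroup is
unique). -/
def InertiaCardStatement : Prop :=
  ∀ (A F : Type) [CommRing A] [IsDomain A] [IsDiscreteValuationRing A]
    [IsAdicComplete (IsLocalRing.maximalIdeal A) A] [Finite (IsLocalRing.ResidueField A)]
    [Field F] [CharZero F] [Algebra A F] [IsFractionRing A F]
    (K : Type) [Field K] [Algebra F K] [FiniteDimensional F K]
    (N : Type) [Field N] [Algebra F N] [Algebra K N] [IsScalarTower F K N]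
    [FiniteDimensional K N] [IsGalois K N] (I : Subgroup (N ≃ₐ[K] N)), I.Normal →
      (∀ E : IntermediateField K N,
        letI : Algebra F E := ((algebraMap K E).comp (algebraMap F K)).toAlgebra
        (IsUnram A F N E ↔ E.fixingSubgroup ⊓ I = ⊥) ∧
        (IsUnram A F E K ↔ I ≤ E.fixingSubgroup)) →
      ∀ (ϖK : Kˣ) (ϖN : Nˣ), IsUnif A F K ϖK → IsUnif A F N ϖN →
        unitsIncl N K ϖK * ϖN ^ (-(Nat.card I : ℤ)) ∈ intUnits A F N

theorem inertiaStrong_of (h6 : InertiaStatement) (hc : InertiaCardStatement) :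
    InertiaStrongStatement := by
  intro A F _ _ _ _ _ _ _ _ _ K _ _ _ N _ _ _ _ _ _
  obtain ⟨I, hIn, hI⟩ := h6 A F K N
  exact ⟨I, hIn, hI, hc A F K N I hIn hI⟩

theorem inertia_of_inertiaStrong (h : InertiaStrongStatement) : InertiaStatement := by
  intro A F _ _ _ _ _ _ _ _ _ K _ _ _ N _ _ _ _ _ _
  obtain ⟨I, hIn, hI, -⟩ := h A F K N
  exact ⟨I, hIn, hI⟩

/-- **GLUE T5.**  `H²(Gal(L/K), Lˣ)` is cyclic of order `[L : K]`. -/
theorem h2Cyclic_of
    (hA4a : CycCocycleIsCocycleStatement) (hA4b : CycCocycleCoboundaryIffStatement)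
    (hA4d : CycCocyclePullbackStatement)
    (hLF2 : ExistsUnifStatement) (hLF3 : IntUnitsComapStatement) (hLF7 : RamificationStatement)
    (hUR1 : UnramCyclicStatement) (hT2 : UnramNormRangeStatement)
    (hUR5 : ExistsUnramExtStatement) (hUR6 : InertiaStrongStatement)
    (hT4 : H2CardDvdStatement) : H2CyclicStatement := by
  intro A F _ _ _ _ _ _ _ _ _ K _ _ _ L _ _ _ _ _ _
  have hn0 : 0 < Module.finrank K L := Module.finrank_pos
  obtain ⟨N, iN1, iN2, iN3, iN4, iN5, iN6, iN7, iN8, iN9, hNL, hdeg⟩ :=
    hUR5 A F K L (Module.finrank K L) hn0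
  obtain ⟨I, hIn, hI, hIcard⟩ := hUR6 A F K N
  haveI := hIn
  letI algFU : Algebra F (IntermediateField.fixedField I) :=
    ((algebraMap K (IntermediateField.fixedField I)).comp (algebraMap F K)).toAlgebra
  haveI : IsScalarTower F K (IntermediateField.fixedField I) :=
    IsScalarTower.of_algebraMap_eq (fun _ => rfl)
  -- `U = N^I` is unramified over `K`
  have hUK : IsUnram A F (IntermediateField.fixedField I) K :=
    (hI (IntermediateField.fixedField I)).2.2
      (le_of_eq (IntermediateField.fixingSubgroup_fixedField I).symm)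
  -- `N` is unramified over the image of `L`
  have hEL : IsUnram A F N (IsScalarTower.toAlgHom K L N).fieldRange := by
    intro x
    obtain ⟨y, hy⟩ := hNL x
    have hmem : ∀ z : L, algebraMap L N z ∈ (IsScalarTower.toAlgHom K L N).fieldRange :=
      fun z => AlgHom.mem_fieldRange.2 ⟨z, rfl⟩
    have hy0 : (⟨algebraMap L N y, hmem y⟩ : (IsScalarTower.toAlgHom K L N).fieldRange) ≠ 0 := by
      intro h
      have h' : algebraMap L N (y : L) = 0 := congrArg Subtype.val h
      exact y.ne_zero ((map_eq_zero _).1 h')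
    refine ⟨Units.mk0 ⟨algebraMap L N y, hmem y⟩ hy0, ?_⟩
    have e : unitsIncl N (IsScalarTower.toAlgHom K L N).fieldRange
        (Units.mk0 ⟨algebraMap L N y, hmem y⟩ hy0) = unitsIncl N L y := by
      apply Units.ext
      rfl
    rw [e]
    exact hy
  have hdisj0 := (hI (IsScalarTower.toAlgHom K L N).fieldRange).1.1 hEL
  have hkerI : (AlgEquiv.restrictNormalHom (IntermediateField.fixedField I) :
      (N ≃ₐ[K] N) →* _).ker = I := by
    rw [IntermediateField.restrictNormalHom_ker, IntermediateField.fixingSubgroup_fixedField]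
  have hdisj : ∀ g : N ≃ₐ[K] N, AlgEquiv.restrictNormalHom L g = 1 →
      AlgEquiv.restrictNormalHom (IntermediateField.fixedField I) g = 1 → g = 1 := by
    intro g hgL hgU
    have h1 : g ∈ (IsScalarTower.toAlgHom K L N).fieldRange.fixingSubgroup := by
      rw [IntermediateField.mem_fixingSubgroup_iff]
      rintro x ⟨y, rfl⟩
      exact (restrictNormalHom_eq_one_iff g).1 hgL y
    have h2 : g ∈ I := by
      rw [← hkerI]
      exact hgU
    have h3 : g ∈ (IsScalarTower.toAlgHom K L N).fieldRange.fixingSubgroup ⊓ I := ⟨h1, h2⟩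
    rw [hdisj0] at h3
    exact Subgroup.mem_bot.1 h3
  have hcard : ∀ (ϖK : Kˣ) (ϖN : Nˣ), IsUnif A F K ϖK → IsUnif A F N ϖN →
      unitsIncl N K ϖK * ϖN ^ (-(Nat.card
        (AlgEquiv.restrictNormalHom (IntermediateField.fixedField I) :
          (N ≃ₐ[K] N) →* _).ker : ℤ)) ∈ intUnits A F N := by
    rw [hkerI]
    exact hIcard
  obtain ⟨b, hb, hord⟩ := exists_cocycle_of_order A F K L N (IntermediateField.fixedField I)
    hA4a hA4b hA4d hLF2 hLF3 hLF7 hUR1 hT2 hNL hdeg hUK hdisj hcard
  exact card_H2_eq_and_isAddCyclic_of_cocycle (Module.finrank K L) hn0 (hT4 A F K L) b hb hord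

end Fermat.Agent.S55.Local.H95
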