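import Fermat.Agent.S55.Local.H95.Galois

/-!
# S55 / layer L (helper95): auxiliary lemmas for the T5 glue

* integrality / uniformizers along an unramified extension (formal consequences of the
  definitions in `Local/Defs.lean`);
* a lemma on generators of finite cyclic groups;
* powers and products of multiplicative 2-coboundaries.
-/

set_option autoImplicit false
set_option linter.style.haveILetI false

namespace Fermat.Agent.S55.Local.H95

open groupCohomology Fermat.Agent.S55.Local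

section Units

variable {A F : Type} [CommRing A] [Field F] [Algebra A F]
variable {L : Type} [Field L] [Algebra F L]

lemma isInt_of_pow {x : L} {m : ℕ} (hm : 0 < m) (h : IsInt A F L (x ^ m)) : IsInt A F L x := by
  letI : Algebra A L := (toL A F L).toAlgebra
  have h' : IsIntegral A (x ^ m) := h
  exact IsIntegral.of_pow hm h'

lemma mem_intUnits_of_pow_mem {x : Lˣ} {m : ℕ} (hm : 0 < m) (h : x ^ m ∈ intUnits A F L) :
    x ∈ intUnits A F L := by
  obtain ⟨h1, h2⟩ := h
  refine ⟨isInt_of_pow hm (by simpa using h1), isInt_of_pow (x := ((x⁻¹ : Lˣ) : L)) hm ?_⟩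
  rw [← Units.val_pow_eq_pow_val, inv_pow]
  exact h2

lemma mem_intUnits_of_zpow_mem {x : Lˣ} {m : ℤ} (hm : m ≠ 0) (h : x ^ m ∈ intUnits A F L) :
    x ∈ intUnits A F L := by
  have hpos : 0 < m.natAbs := Int.natAbs_pos.2 hm
  rcases Int.natAbs_eq m with h1 | h1
  · rw [h1, zpow_natCast] at h
    exact mem_intUnits_of_pow_mem hpos h
  · rw [h1, zpow_neg, zpow_natCast] at h
    exact mem_intUnits_of_pow_mem hpos ((intUnits A F L).inv_mem_iff.1 h)

/-- The exponent of a uniformizer in an element is unique. -/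
lemma zpow_unique_of_isUnif {ϖ : Lˣ} (hϖ : IsUnif A F L ϖ) {x : Lˣ} {a b : ℤ}
    (ha : x * ϖ ^ (-a) ∈ intUnits A F L) (hb : x * ϖ ^ (-b) ∈ intUnits A F L) : a = b := by
  by_contra hab
  have h1 : (x * ϖ ^ (-b)) * (x * ϖ ^ (-a))⁻¹ ∈ intUnits A F L :=
    (intUnits A F L).mul_mem hb ((intUnits A F L).inv_mem ha)
  have h2 : (x * ϖ ^ (-b)) * (x * ϖ ^ (-a))⁻¹ = ϖ ^ (a - b) := by
    rw [mul_inv, zpow_neg, zpow_neg, inv_inv, sub_eq_add_neg, zpow_add, zpow_neg]
    rw [mul_comm x, mul_assoc, mul_inv_cancel_left, mul_comm]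
  rw [h2] at h1
  exact hϖ.2.1 (mem_intUnits_of_zpow_mem (sub_ne_zero.2 hab) h1)

variable {N : Type} [Field N] [Algebra F N] [Algebra L N] [IsScalarTower F L N]

lemma isInt_algebraMap {x : L} (h : IsInt A F L x) : IsInt A F N (algebraMap L N x) := by
  obtain ⟨p, hp, hpx⟩ := h
  refine ⟨p, hp, ?_⟩
  have e : toL A F N = (algebraMap L N).comp (toL A F L) := by
    ext a
    simp [toL, IsScalarTower.algebraMap_apply F L N]
  rw [e, ← Polynomial.hom_eval₂, hpx, map_zero]

/-- In an unramified extension a uniformizer of the base is a uniformizer of the top. -/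
lemma isUnif_unitsIncl
    (hcomap : ∀ y : Lˣ, unitsIncl N L y ∈ intUnits A F N ↔ y ∈ intUnits A F L)
    (hunr : IsUnram A F N L) {ϖ : Lˣ} (hϖ : IsUnif A F L ϖ) :
    IsUnif A F N (unitsIncl N L ϖ) := by
  refine ⟨isInt_algebraMap hϖ.1, fun h => hϖ.2.1 ((hcomap ϖ).1 h), fun x => ?_⟩
  obtain ⟨y, hy⟩ := hunr x
  obtain ⟨m, hm⟩ := hϖ.2.2 y
  refine ⟨m, ?_⟩
  have h1 := (hcomap _).2 hm
  have h2 := (intUnits A F N).mul_mem hy h1
  have e : x * (unitsIncl N L y)⁻¹ * unitsIncl N L (y * ϖ ^ (-m)) =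
      x * unitsIncl N L ϖ ^ (-m) := by
    rw [map_mul, map_zpow]
    group
  rwa [e] at h2

end Units

section Cyclic

/-- In a finite cyclic group `C` with generator `φ`, an injective homomorphism `ρ : H →* C`
hits `φ ^ (|C| / |H|)`, and the preimage generates `H`. -/
lemma exists_generator_map_eq_pow {C H : Type} [Group C] [Group H] [Finite C] [Finite H]
    (φ : C) (hφ : ∀ g, g ∈ Subgroup.zpowers φ) (ρ : H →* C) (hρ : Function.Injective ρ) :
    ∃ ψ : H, (∀ h, h ∈ Subgroup.zpowers ψ) ∧ ρ ψ = φ ^ (Nat.card C / Nat.card H) := by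
  classical
  haveI : Fintype C := Fintype.ofFinite C
  haveI : Fintype H := Fintype.ofFinite H
  haveI : IsCyclic C := ⟨φ, hφ⟩
  have hn0 : 0 < Nat.card H := Nat.card_pos
  have hdvd : Nat.card H ∣ Nat.card C := Subgroup.card_dvd_of_injective ρ hρ
  obtain ⟨d, hd⟩ := hdvd
  have hd0 : 0 < d := by
    rcases Nat.eq_zero_or_pos d with h | h
    · rw [h, mul_zero] at hd
      exact absurd hd (Nat.card_pos (α := C)).ne'
    · exact h
  have hdiv : Nat.card C / Nat.card H = d := by
    rw [hd, Nat.mul_div_cancel_left _ hn0]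
  rw [hdiv]
  -- the image of `ρ` is the set of elements killed by `|H|`
  have hsub : Finset.univ.image ρ ⊆ Finset.univ.filter (fun a : C => a ^ Nat.card H = 1) := by
    intro x hx
    obtain ⟨h, -, rfl⟩ := Finset.mem_image.1 hx
    rw [Finset.mem_filter]
    exact ⟨Finset.mem_univ _, by rw [← map_pow, pow_card_eq_one', map_one]⟩
  have hcard : (Finset.univ.filter (fun a : C => a ^ Nat.card H = 1)).card ≤
      (Finset.univ.image ρ).card := by
    rw [Finset.card_image_of_injective _ hρ, Finset.card_univ, ← Nat.card_eq_fintype_card]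
    exact IsCyclic.card_pow_eq_one_le hn0
  have heq := Finset.eq_of_subset_of_card_le hsub hcard
  have hmem : φ ^ d ∈ Finset.univ.filter (fun a : C => a ^ Nat.card H = 1) := by
    rw [Finset.mem_filter]
    refine ⟨Finset.mem_univ _, ?_⟩
    rw [← pow_mul, mul_comm, ← hd, pow_card_eq_one']
  rw [← heq] at hmem
  obtain ⟨ψ, -, hψ⟩ := Finset.mem_image.1 hmem
  refine ⟨ψ, ?_, hψ⟩
  have hord : orderOf ψ = Nat.card H := by
    rw [← orderOf_injective ρ hρ ψ, hψ, orderOf_pow, orderOf_eq_card_of_forall_mem_zpowers hφ, hd,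
      Nat.gcd_mul_left_left, Nat.mul_div_cancel _ hd0]
  have htop : Subgroup.zpowers ψ = ⊤ :=
    Subgroup.eq_top_of_card_eq _ (by rw [Nat.card_zpowers, hord])
  intro h
  rw [htop]
  exact Subgroup.mem_top h

end Cyclic

section Cob

variable {G M : Type*} [Group G] [CommGroup M] [MulDistribMulAction G M]

lemma isMulCoboundary₂_mul {c c' : G × G → M} (hc : IsMulCoboundary₂ c)
    (hc' : IsMulCoboundary₂ c') : IsMulCoboundary₂ (fun p => c p * c' p) := by
  obtain ⟨t, ht⟩ := hc
  obtain ⟨t', ht'⟩ := hc'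
  refine ⟨fun g => t g * t' g, fun g h => ?_⟩
  simp only [← ht, ← ht', smul_mul']
  rw [mul_mul_mul_comm, div_mul_div_comm]

lemma isMulCoboundary₂_pow {c : G × G → M} (hc : IsMulCoboundary₂ c) (k : ℕ) :
    IsMulCoboundary₂ (fun p => c p ^ k) := by
  obtain ⟨t, ht⟩ := hc
  refine ⟨fun g => t g ^ k, fun g h => ?_⟩
  simp only [← ht, smul_pow', mul_pow, div_pow]

end Cob

end Fermat.Agent.S55.Local.H95
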