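import Mathlib

/-!
# S55 / layer L (helper95): inflation and restriction in degree 2 at the COCYCLE level

Pure algebra, Mathlib only.  Additive form; the multiplicative form is in `InfResMul.lean`.

Setting: a surjective group homomorphism `π : G →* Q`, a `G`-module `M`, a `Q`-module `M'` and an
injective equivariant map `ι : M' →+ M` whose image is the module of `ker π`-invariants of `M`;
`H¹(ker π, M) = 0`.  Everything is expressed through functions on `G` (no subtypes, no quotient
groups):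

* `infl_injective` : if the inflation `(g, h) ↦ ι (b (π g, π h))` of a 2-cocycle `b` on `Q` is a
  coboundary on `G`, then `b` is a coboundary on `Q`;
* `infres_exact` : if the restriction of a 2-cocycle `c` on `G` to `ker π` is a coboundary, then
  `c` is cohomologous to the inflation of a 2-cocycle on `Q`.
-/

set_option autoImplicit false

namespace Fermat.Agent.S55.Local.H95

open groupCohomology

section Add

variable {G Q M M' : Type*} [Group G] [Group Q] [AddCommGroup M] [AddCommGroup M']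
  [DistribMulAction G M] [DistribMulAction Q M']

/-- The coboundary of a 1-cochain. -/
def cob (t : G → M) : G × G → M := fun p => p.1 • t p.2 - t (p.1 * p.2) + t p.1

@[simp] lemma cob_apply (t : G → M) (g h : G) : cob t (g, h) = g • t h - t (g * h) + t g := rfl

lemma isCocycle₂_cob (t : G → M) : IsCocycle₂ (cob t) := by
  intro g h j
  simp only [cob_apply, smul_add, smul_sub, mul_smul, mul_assoc]
  abel

lemma isCocycle₂_add {c c' : G × G → M} (hc : IsCocycle₂ c) (hc' : IsCocycle₂ c') :
    IsCocycle₂ (fun p => c p + c' p) := by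
  intro g h j
  have h1 := hc g h j
  have h2 := hc' g h j
  simp only [smul_add]
  linear_combination (norm := abel) h1 + h2

lemma isCocycle₂_sub {c c' : G × G → M} (hc : IsCocycle₂ c) (hc' : IsCocycle₂ c') :
    IsCocycle₂ (fun p => c p - c' p) := by
  intro g h j
  have h1 := hc g h j
  have h2 := hc' g h j
  simp only [smul_sub]
  linear_combination (norm := abel) h1 - h2

/-- The hypotheses of the inflation–restriction sequence, in cocycle form. -/
structure InflSetup (π : G →* Q) (ι : M' →+ M) : Prop where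
  surj : Function.Surjective π
  inj : Function.Injective ι
  equivariant : ∀ (g : G) (y : M'), g • ι y = ι (π g • y)
  invariants : ∀ m : M, (∀ g : G, π g = 1 → g • m = m) → ∃ y : M', ι y = m
  h1 : ∀ t : G → M, (∀ s s' : G, π s = 1 → π s' = 1 → t (s * s') = s • t s' + t s) →
    ∃ m : M, ∀ s : G, π s = 1 → s • m - m = t s

variable {π : G →* Q} {ι : M' →+ M}

lemma InflSetup.ker_smul (H : InflSetup π ι) {s : G} (hs : π s = 1) (y : M') :
    s • ι y = ι y := by
  rw [H.equivariant, hs, one_smul]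

/-- **Inflation is injective on `H²`** (cocycle form), when `H¹(ker π, M) = 0`. -/
theorem infl_injective (H : InflSetup π ι) (b : Q × Q → M') (hb : IsCocycle₂ b)
    (hcob : IsCoboundary₂ (fun p : G × G => ι (b (π p.1, π p.2)))) : IsCoboundary₂ b := by
  obtain ⟨t, ht⟩ := hcob
  have hb1 : ∀ q, b (1, q) = b (1, 1) := fun q => map_one_fst_of_isCocycle₂ hb q
  have hb2 : ∀ q, b (q, 1) = q • b (1, 1) := fun q => map_one_snd_of_isCocycle₂ hb q
  have hcoc : ∀ s s' : G, π s = 1 → π s' = 1 →
      t (s * s') - ι (b (1, 1)) = s • (t s' - ι (b (1, 1))) + (t s - ι (b (1, 1))) := by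
    intro s s' hs hs'
    have h := ht s s'
    simp only [hs, hs'] at h
    simp only [smul_sub, H.ker_smul hs]
    linear_combination (norm := abel) -h
  obtain ⟨m, hm'⟩ := H.h1 (fun g => t g - ι (b (1, 1))) hcoc
  replace hm' : ∀ s, π s = 1 → s • m - m = t s - ι (b (1, 1)) := hm'
  obtain ⟨t₂, ht₂⟩ : ∃ t₂ : G → M, ∀ g, t₂ g = t g - ι (b (1, 1)) - (g • m - m) := ⟨_, fun _ => rfl⟩
  have ht₂cob : ∀ g h, g • t₂ h - t₂ (g * h) + t₂ g = ι (b (π g, π h)) - g • ι (b (1, 1)) := by
    intro g h
    simp only [ht₂, smul_sub, mul_smul]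
    linear_combination (norm := abel) ht g h
  have ht₂ker : ∀ s, π s = 1 → t₂ s = 0 := by
    intro s hs
    rw [ht₂]
    linear_combination (norm := abel) - hm' s hs
  have hright : ∀ g s, π s = 1 → t₂ (g * s) = t₂ g := by
    intro g s hs
    have h := ht₂cob g s
    rw [hs, hb2, ht₂ker s hs, smul_zero, H.equivariant] at h
    linear_combination (norm := abel) -h
  have hleft : ∀ s g, π s = 1 → s • t₂ g = t₂ (s * g) := by
    intro s g hs
    have h := ht₂cob s g
    rw [hs, hb1, ht₂ker s hs, H.ker_smul hs] at h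
    linear_combination (norm := abel) h
  have hinv : ∀ g s, π s = 1 → s • t₂ g = t₂ g := by
    intro g s hs
    rw [hleft s g hs]
    have e : s * g = g * (g⁻¹ * s * g) := by group
    rw [e]
    exact hright g _ (by simp [hs])
  choose τ hτ using fun g => H.invariants (t₂ g) (fun s hs => hinv g s hs)
  have hσ : ∀ q, π (Function.surjInv H.surj q) = q := Function.surjInv_eq H.surj
  have hsec : ∀ g, t₂ (Function.surjInv H.surj (π g)) = t₂ g := by
    intro g
    have e : Function.surjInv H.surj (π g) = g * (g⁻¹ * Function.surjInv H.surj (π g)) := by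
      group
    rw [e]
    exact hright g _ (by simp [hσ])
  refine ⟨fun q => τ (Function.surjInv H.surj q) + b (1, 1), fun q r => ?_⟩
  obtain ⟨g, rfl⟩ := H.surj q
  obtain ⟨h, rfl⟩ := H.surj r
  apply H.inj
  have h := ht₂cob g h
  simp only [map_add, map_sub, smul_add, ← H.equivariant, hτ, ← map_mul, hsec]
  linear_combination (norm := abel) h


/-- Step 1 of exactness: kill `c (s, g)` for `s ∈ ker π`. -/
lemma exists_cob_ker_left (H : InflSetup π ι) (c : G × G → M) (hc : IsCocycle₂ c)
    (hker : ∀ s s' : G, π s = 1 → π s' = 1 → c (s, s') = 0) :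
    ∃ u : G → M, ∀ s g : G, π s = 1 → c (s, g) + cob u (s, g) = 0 := by
  have hσ : ∀ q, π (Function.surjInv H.surj q) = q := Function.surjInv_eq H.surj
  obtain ⟨r, hrdef⟩ : ∃ r : G → G, ∀ g, r g = Function.surjInv H.surj (π g) := ⟨_, fun _ => rfl⟩
  have hr : ∀ g, π (g * (r g)⁻¹) = 1 := by intro g; simp [hrdef, hσ]
  have hrs : ∀ s g, π s = 1 → r (s * g) = r g := by intro s g hs; simp [hrdef, hs]
  have hrker : ∀ s, π s = 1 → π (r s) = 1 := by intro s hs; simp [hrdef, hσ, hs]
  refine ⟨fun g => c (g * (r g)⁻¹, r g), fun s g hs => ?_⟩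
  have h1 := hc s (g * (r g)⁻¹) (r g)
  rw [hker s _ hs (hr g)] at h1
  have e1 : g * (r g)⁻¹ * r g = g := by group
  rw [e1] at h1
  have hus : c (s * (r s)⁻¹, r s) = 0 := hker _ _ (hr s) (hrker s hs)
  simp only [cob_apply, hrs s g hs, hus, mul_assoc]
  linear_combination (norm := abel) -h1

/-- Step 2 of exactness: kill moreover `c (g, s)` for `s ∈ ker π`. -/
lemma exists_cob_ker_right (H : InflSetup π ι) (c : G × G → M) (hc : IsCocycle₂ c)
    (hker : ∀ s g : G, π s = 1 → c (s, g) = 0) :
    ∃ μ : G → M, (∀ s g : G, π s = 1 → c (s, g) + cob μ (s, g) = 0) ∧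
      (∀ g s : G, π s = 1 → c (g, s) + cob μ (g, s) = 0) := by
  have hσ : ∀ q, π (Function.surjInv H.surj q) = q := Function.surjInv_eq H.surj
  obtain ⟨r, hrdef⟩ : ∃ r : G → G, ∀ g, r g = Function.surjInv H.surj (π g) := ⟨_, fun _ => rfl⟩
  have hr : ∀ g, π (g * (r g)⁻¹) = 1 := by intro g; simp [hrdef, hσ]
  have hrs : ∀ s g, π s = 1 → r (s * g) = r g := by intro s g hs; simp [hrdef, hs]
  have hrker : ∀ s, π s = 1 → π (r s) = 1 := by intro s hs; simp [hrdef, hσ, hs]
  -- (*) `c (s * g, h) = s • c (g, h)`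
  have hstar : ∀ s g h : G, π s = 1 → c (s * g, h) = s • c (g, h) := by
    intro s g h hs
    have h1 := hc s g h
    rw [hker s g hs, hker s (g * h) hs] at h1
    linear_combination (norm := abel) h1
  -- the twisted 1-cocycles
  have hw : ∀ q : Q, ∃ m : M, (q = 1 → m = 0) ∧ ∀ s : G, π s = 1 →
      s • m - m = c (Function.surjInv H.surj q,
        (Function.surjInv H.surj q)⁻¹ * s * Function.surjInv H.surj q) := by
    intro q
    by_cases hq : q = 1
    · refine ⟨0, fun _ => rfl, fun s hs => ?_⟩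
      rw [hker _ _ (by rw [hσ, hq]), smul_zero, sub_zero]
    · obtain ⟨ρ, hρ⟩ : ∃ ρ : G, ρ = Function.surjInv H.surj q := ⟨_, rfl⟩
      rw [← hρ]
      have hcoc : ∀ s s' : G, π s = 1 → π s' = 1 →
          c (ρ, ρ⁻¹ * (s * s') * ρ) = s • c (ρ, ρ⁻¹ * s' * ρ) + c (ρ, ρ⁻¹ * s * ρ) := by
        intro s s' hs hs'
        have h1 := hc ρ (ρ⁻¹ * s * ρ) (ρ⁻¹ * s' * ρ)
        have e1 : ρ * (ρ⁻¹ * s * ρ) = s * ρ := by group
        have e2 : ρ⁻¹ * s * ρ * (ρ⁻¹ * s' * ρ) = ρ⁻¹ * (s * s') * ρ := by group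
        have hk : π (ρ⁻¹ * s * ρ) = 1 := by simp [hs]
        rw [e1, e2, hstar s ρ _ hs, hker _ _ hk, smul_zero] at h1
        linear_combination (norm := abel) -h1
      obtain ⟨m, hm⟩ := H.h1 (fun s => c (ρ, ρ⁻¹ * s * ρ)) hcoc
      exact ⟨m, fun h => absurd h hq, hm⟩
  choose mq hmq1 hmq using hw
  have hmq0 : mq 1 = 0 := hmq1 1 rfl
  obtain ⟨μ, hμdef⟩ : ∃ μ : G → M, ∀ g, μ g = (g * (r g)⁻¹) • mq (π g) := ⟨_, fun _ => rfl⟩
  have hμs : ∀ s g, π s = 1 → μ (s * g) = s • μ g := by
    intro s g hs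
    rw [hμdef, hμdef, hrs s g hs, map_mul, hs, one_mul, ← mul_smul, mul_assoc]
  have hμker : ∀ s, π s = 1 → μ s = 0 := by
    intro s hs
    rw [hμdef, hs, hmq0, smul_zero]
  have hcμ : ∀ g s, π s = 1 → c (g, s) = (g * s * g⁻¹) • μ g - μ g := by
    intro g s hs
    have e1 : g = (g * (r g)⁻¹) * r g := by group
    have h1 : c (g, s) = (g * (r g)⁻¹) • c (r g, s) := by
      conv_lhs => rw [e1]
      exact hstar _ _ _ (hr g)
    have hk : π (r g * s * (r g)⁻¹) = 1 := by simp [hs]
    have h2 := hmq (π g) (r g * s * (r g)⁻¹) hk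
    rw [← hrdef] at h2
    have e2 : (r g)⁻¹ * (r g * s * (r g)⁻¹) * r g = s := by group
    rw [e2] at h2
    rw [h1, ← h2, hμdef, smul_sub, ← mul_smul, ← mul_smul]
    congr 2
    group
  refine ⟨μ, fun s g hs => ?_, fun g s hs => ?_⟩
  · rw [hker s g hs, cob_apply, hμs s g hs, hμker s hs]
    abel
  · have hk : π (g * s * g⁻¹) = 1 := by simp [hs]
    have hμgs : μ (g * s) = (g * s * g⁻¹) • μ g := by
      rw [← hμs _ g hk]
      congr 1
      group
    rw [hcμ g s hs, cob_apply, hμker s hs, smul_zero, hμgs]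
    abel

/-- Step 3 of exactness: a cocycle vanishing on `ker π × G` and `G × ker π` is inflated. -/
lemma exists_descent (H : InflSetup π ι) (c : G × G → M) (hc : IsCocycle₂ c)
    (hl : ∀ s g : G, π s = 1 → c (s, g) = 0) (hr : ∀ g s : G, π s = 1 → c (g, s) = 0) :
    ∃ b : Q × Q → M', IsCocycle₂ b ∧ ∀ g h : G, ι (b (π g, π h)) = c (g, h) := by
  have hσ : ∀ q, π (Function.surjInv H.surj q) = q := Function.surjInv_eq H.surj
  have hA : ∀ s g h : G, π s = 1 → c (s * g, h) = s • c (g, h) := by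
    intro s g h hs
    have h1 := hc s g h
    rw [hl s g hs, hl s (g * h) hs] at h1
    linear_combination (norm := abel) h1
  have hB : ∀ g s h : G, π s = 1 → c (g * s, h) = c (g, s * h) := by
    intro g s h hs
    have h1 := hc g s h
    rw [hr g s hs, hl s h hs, smul_zero] at h1
    linear_combination (norm := abel) h1
  have hC : ∀ g h s : G, π s = 1 → c (g, h * s) = c (g, h) := by
    intro g h s hs
    have h1 := hc g h s
    rw [hr (g * h) s hs, hr h s hs, smul_zero] at h1
    linear_combination (norm := abel) -h1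
  have hD : ∀ g s h : G, π s = 1 → c (g, s * h) = c (g, h) := by
    intro g s h hs
    have e : s * h = h * (h⁻¹ * s * h) := by group
    rw [e]
    exact hC g h _ (by simp [hs])
  have hE : ∀ g s h : G, π s = 1 → c (g * s, h) = c (g, h) := by
    intro g s h hs
    rw [hB g s h hs, hD g s h hs]
  have hF : ∀ s g h : G, π s = 1 → c (s * g, h) = c (g, h) := by
    intro s g h hs
    have e : s * g = g * (g⁻¹ * s * g) := by group
    rw [e]
    exact hE g _ h (by simp [hs])
  have hG : ∀ s g h : G, π s = 1 → s • c (g, h) = c (g, h) := by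
    intro s g h hs
    rw [← hA s g h hs, hF s g h hs]
  choose γ hγ using fun p : G × G => H.invariants (c p) (fun s hs => hG s p.1 p.2 hs)
  have hsec : ∀ g h : G,
      c (Function.surjInv H.surj (π g), Function.surjInv H.surj (π h)) = c (g, h) := by
    intro g h
    have e1 : Function.surjInv H.surj (π g) = g * (g⁻¹ * Function.surjInv H.surj (π g)) := by
      group
    have e2 : Function.surjInv H.surj (π h) = h * (h⁻¹ * Function.surjInv H.surj (π h)) := by
      group
    rw [e1, hE g _ _ (by simp [hσ]), e2, hC g h _ (by simp [hσ])]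
  have hb : ∀ g h : G, ι (γ (Function.surjInv H.surj (π g), Function.surjInv H.surj (π h))) =
      c (g, h) := by
    intro g h
    rw [hγ, hsec]
  refine ⟨fun p => γ (Function.surjInv H.surj p.1, Function.surjInv H.surj p.2), ?_, hb⟩
  intro q q' q''
  obtain ⟨g, rfl⟩ := H.surj q
  obtain ⟨h, rfl⟩ := H.surj q'
  obtain ⟨j, rfl⟩ := H.surj q''
  apply H.inj
  simp only [map_add, ← H.equivariant, ← map_mul, hb]
  exact hc g h j

/-- **Exactness of inflation–restriction in degree 2** (cocycle form), when `H¹(ker π, M) = 0`: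
a 2-cocycle on `G` whose restriction to `ker π` is a coboundary is cohomologous to the inflation
of a 2-cocycle on `Q`. -/
theorem infres_exact (H : InflSetup π ι) (c : G × G → M) (hc : IsCocycle₂ c)
    (hres : ∃ s₀ : G → M, ∀ s s' : G, π s = 1 → π s' = 1 →
      s • s₀ s' - s₀ (s * s') + s₀ s = c (s, s')) :
    ∃ b : Q × Q → M', IsCocycle₂ b ∧
      IsCoboundary₂ (fun p : G × G => c p - ι (b (π p.1, π p.2))) := by
  obtain ⟨s₀, hs₀⟩ := hres
  -- Step 0
  have hc₁ : IsCocycle₂ (fun p => c p - cob s₀ p) := isCocycle₂_sub hc (isCocycle₂_cob s₀)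
  have hc₁ker : ∀ s s', π s = 1 → π s' = 1 → (fun p => c p - cob s₀ p) (s, s') = 0 := by
    intro s s' hs hs'
    simp only [cob_apply, hs₀ s s' hs hs', sub_self]
  -- Step 1
  obtain ⟨u, hu⟩ := exists_cob_ker_left H _ hc₁ hc₁ker
  have hc₂ : IsCocycle₂ (fun p => (c p - cob s₀ p) + cob u p) :=
    isCocycle₂_add hc₁ (isCocycle₂_cob u)
  -- Step 2
  obtain ⟨μ, hμl, hμr⟩ := exists_cob_ker_right H _ hc₂ hu
  have hc₃ : IsCocycle₂ (fun p => ((c p - cob s₀ p) + cob u p) + cob μ p) :=
    isCocycle₂_add hc₂ (isCocycle₂_cob μ)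
  -- Step 3
  obtain ⟨b, hb, hbc⟩ := exists_descent H _ hc₃ hμl hμr
  refine ⟨b, hb, fun g => s₀ g - u g - μ g, fun g h => ?_⟩
  have h1 := hbc g h
  simp only [cob_apply] at h1
  simp only [smul_sub]
  rw [h1]
  abel

end Add

end Fermat.Agent.S55.Local.H95
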